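import Fermat.Agent.GS.Iface
import Fermat.Agent.GT.EMB.General
import Fermat.Agent.GT.EMB.ALIdx
import Fermat.Agent.GR.C.Basic

/-!
# S34, piece 2: `(τ - 1)(σ - 1) = 0` on Kummer classes from the export `NodalInertia` of GS-CONC
-/

set_option autoImplicit false

noncomputable section

open ModularCurve IsLocalRing

namespace Fermat.Agent.S34

open Fermat.Agent.GR Fermat.Agent.GS

variable {N n : ℕ} (A : ValuationSubring Qbar)

/-- two multiplicative operators which are congruent modulo `𝔪_A` on integral series: the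
quotient `Φ u / Ψ u` is trivial at the Gauss valuation. -/
theorem trivAt_of_cong (hn : 0 < n)
    (Φ Ψ : LaurentSeries Qbar →*₀ LaurentSeries Qbar)
    (hΦF : ∀ u ∈ FF Qbar N, Φ u ∈ FF Qbar N) (hΨF : ∀ u ∈ FF Qbar N, Ψ u ∈ FF Qbar N)
    (hΦC : ∀ c : Qbar, c ≠ 0 → ∃ c' : Qbar, c' ≠ 0 ∧ Φ (HahnSeries.C c) = HahnSeries.C c')
    (hΨC : ∀ c : Qbar, c ≠ 0 → ∃ c' : Qbar, c' ≠ 0 ∧ Ψ (HahnSeries.C c) = HahnSeries.C c')
    (hcong : ∀ f : LaurentSeries A, red A f ≠ 0 → ∃ a b : LaurentSeries A,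
      incl A a = Φ (incl A f) ∧ incl A b = Ψ (incl A f) ∧ red A a = red A b ∧ red A a ≠ 0)
    {u : LaurentSeries Qbar} (hu : u ∈ FF Qbar N) (hu0 : u ≠ 0) :
    TrivAt N n A (Φ u / Ψ u) := by
  obtain ⟨κ, F, G, hκ, hFF, hGF, hF, hG, hu_eq⟩ := exists_normalized A N hu hu0
  obtain ⟨f, rfl, hf⟩ := (isPrim_iff A).mp hF
  obtain ⟨g, rfl, hg⟩ := (isPrim_iff A).mp hG
  obtain ⟨af, bf, haf, hbf, hredf, hredf0⟩ := hcong f hf
  obtain ⟨ag, bg, hag, hbg, hredg, hredg0⟩ := hcong g hg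
  obtain ⟨c₁, hc₁, hΦκ⟩ := hΦC κ hκ
  obtain ⟨c₂, hc₂, hΨκ⟩ := hΨC κ hκ
  have hinj := incl_injective A
  have hne : ∀ x : LaurentSeries A, red A x ≠ 0 → incl A x ≠ 0 := by
    intro x hx h0
    apply hx
    rw [show x = 0 from hinj (by rw [h0, map_zero]), map_zero]
  have hbf0 : red A bf ≠ 0 := hredf ▸ hredf0
  have hbg0 : red A bg ≠ 0 := hredg ▸ hredg0
  have hC₁ : (HahnSeries.C c₁ : LaurentSeries Qbar) ≠ 0 := by
    simpa using hc₁
  have hC₂ : (HahnSeries.C c₂ : LaurentSeries Qbar) ≠ 0 := by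
    simpa using hc₂
  have hΦu : Φ u = HahnSeries.C c₁ * (incl A af / incl A ag) := by
    rw [hu_eq, map_mul, map_div₀, hΦκ, haf, hag]
  have hΨu : Ψ u = HahnSeries.C c₂ * (incl A bf / incl A bg) := by
    rw [hu_eq, map_mul, map_div₀, hΨκ, hbf, hbg]
  have hquot : incl A (af * bg) / incl A (bf * ag) =
      HahnSeries.C (c₂ / c₁) * (Φ u / Ψ u) := by
    rw [hΦu, hΨu, map_mul, map_mul, map_div₀]
    have h1 := hne af hredf0
    have h2 := hne ag hredg0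
    have h3 := hne bf hbf0
    have h4 := hne bg hbg0
    field_simp
  refine ⟨incl A (af * bg), incl A (bf * ag), ?_, ?_, ?_, ?_, ?_, ?_⟩
  · rw [map_mul, haf, hbg]; exact mul_mem (hΦF _ hFF) (hΨF _ hGF)
  · rw [map_mul, hbf, hag]; exact mul_mem (hΨF _ hFF) (hΦF _ hGF)
  · exact (isPrim_incl_iff A _).mpr (by rw [map_mul]; exact mul_ne_zero hredf0 hbg0)
  · exact (isInt_iff A).mpr ⟨_, rfl⟩
  · exact (cong_incl_iff A _ _).mpr (by rw [map_mul, map_mul, hredf, hredg])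
  · rw [hquot]
    exact kummerEquiv_C_mul hn (div_ne_zero hc₂ hc₁) _

/-- `σ(u) / u` is trivial at the Gauss valuation for `σ` in the inertia group. -/
theorem trivAt_gal_div (hn : 0 < n) {σ : Qbar ≃ₐ[ℚ] Qbar} (hσ : σ ∈ A.inertiaSubgroupIn ℚ)
    {u : LaurentSeries Qbar} (hu : u ∈ FF Qbar N) (hu0 : u ≠ 0) :
    TrivAt N n A (gal σ u / u) := by
  obtain ⟨τ, hτ, rfl⟩ := hσ
  exact trivAt_of_cong A hn
    (gal ((A.decompositionSubgroup ℚ).subtype τ)).toMonoidWithZeroHom (MonoidWithZeroHom.id _)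
    (fun u hu => coeffMap_mem_FF _ hu) (fun u hu => hu)
    (fun c hc => ⟨_, (map_ne_zero _).mpr hc, gal_C _ c⟩) (fun c hc => ⟨c, hc, rfl⟩)
    (fun f hf => ⟨coeffMap (actA A τ) f, f, incl_coeffMap_actA A τ f, rfl,
      red_actA_of_mem_inertia A τ hτ f, by rw [red_actA_of_mem_inertia A τ hτ f]; exact hf⟩)
    hu hu0

/-- an Atkin-Lehner involution sends `j(t^d)` to some `j(t^d')`. -/
theorem isWQ_gen {q N1 : ℕ} [NeZero (q * N1)]
    {w : FF Qbar (q * N1) ≃ₐ[Qbar] FF Qbar (q * N1)} (hw : IsWQ Qbar q N1 w) (d : ℕ)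
    (hd : d ∣ q * N1) :
    ∃ d' : ℕ, ((w (GT.EMB.gen Qbar (q * N1) d hd) : FF Qbar (q * N1)) : LaurentSeries Qbar) =
      GT.EMB.jd Qbar d' := by
  obtain ⟨a, d0, ha, hd0, rfl⟩ := GT.EMB.ALIdx_exists_mul hd
  obtain ⟨b, rfl⟩ := ha
  have hne : a * b * N1 ≠ 0 := NeZero.ne _
  have ha0 : a ≠ 0 := by rintro rfl; simp at hne
  have hb0 : b ≠ 0 := by rintro rfl; simp at hne
  have hN0 : N1 ≠ 0 := by rintro rfl; simp at hne
  have hd00 : d0 ≠ 0 := by rintro rfl; exact hN0 (Nat.eq_zero_of_zero_dvd hd0)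
  have : NeZero (a * d0) := ⟨mul_ne_zero ha0 hd00⟩
  have : NeZero (b * d0) := ⟨mul_ne_zero hb0 hd00⟩
  refine ⟨b * d0, ?_⟩
  rw [GT.EMB.jd_eq]
  exact hw a b d0 rfl hd0 _ (by rw [GT.EMB.coe_gen, GT.EMB.jd_eq])

/-- an Atkin-Lehner involution commutes with the Galois action on the coefficients. -/
theorem isWQ_gal {q N1 : ℕ} [NeZero (q * N1)]
    {w : FF Qbar (q * N1) ≃ₐ[Qbar] FF Qbar (q * N1)} (hw : IsWQ Qbar q N1 w)
    (σ : Qbar ≃ₐ[ℚ] Qbar) (x : FF Qbar (q * N1)) :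
    ((w (E.mapFF (σ : Qbar →+* Qbar) (q * N1) x) : FF Qbar (q * N1)) : LaurentSeries Qbar) =
      gal σ ((w x : FF Qbar (q * N1)) : LaurentSeries Qbar) := by
  let φ : FF Qbar (q * N1) →+* LaurentSeries Qbar :=
    ((FF Qbar (q * N1)).val : FF Qbar (q * N1) →+* LaurentSeries Qbar).comp
      ((w : FF Qbar (q * N1) →+* FF Qbar (q * N1)).comp (E.mapFF (σ : Qbar →+* Qbar) (q * N1)))
  let ψ : FF Qbar (q * N1) →+* LaurentSeries Qbar :=
    (gal σ).comp (((FF Qbar (q * N1)).val : FF Qbar (q * N1) →+* LaurentSeries Qbar).comp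
      (w : FF Qbar (q * N1) →+* FF Qbar (q * N1)))
  have h : φ = ψ := by
    refine GT.EMB.ringHom_ext_gen (q * N1) φ ψ ?_ ?_
    · intro c
      have e1 : E.mapFF (σ : Qbar →+* Qbar) (q * N1) (algebraMap Qbar (FF Qbar (q * N1)) c) =
          algebraMap Qbar (FF Qbar (q * N1)) (σ c) :=
        Subtype.ext (C.coeffMap_algebraMap' (σ : Qbar →+* Qbar) c)
      show ((w (E.mapFF (σ : Qbar →+* Qbar) (q * N1) (algebraMap Qbar (FF Qbar (q * N1)) c)) :
        FF Qbar (q * N1)) : LaurentSeries Qbar) =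
          gal σ ((w (algebraMap Qbar (FF Qbar (q * N1)) c) : FF Qbar (q * N1)) :
            LaurentSeries Qbar)
      rw [e1, AlgEquiv.commutes, AlgEquiv.commutes]
      exact (C.coeffMap_algebraMap' (σ : Qbar →+* Qbar) c).symm
    · intro d hd
      obtain ⟨d', hd'⟩ := isWQ_gen hw d hd
      have e1 : E.mapFF (σ : Qbar →+* Qbar) (q * N1) (GT.EMB.gen Qbar (q * N1) d hd) =
          GT.EMB.gen Qbar (q * N1) d hd :=
        Subtype.ext (GT.EMB.coeffMap_jd (σ : Qbar →+* Qbar) d)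
      show ((w (E.mapFF (σ : Qbar →+* Qbar) (q * N1) (GT.EMB.gen Qbar (q * N1) d hd)) :
        FF Qbar (q * N1)) : LaurentSeries Qbar) =
          gal σ ((w (GT.EMB.gen Qbar (q * N1) d hd) : FF Qbar (q * N1)) : LaurentSeries Qbar)
      rw [e1, hd']
      exact (GT.EMB.coeffMap_jd (σ : Qbar →+* Qbar) d').symm
  exact RingHom.congr_fun h x

/-- **(U)**: `(τ - 1)(σ - 1) = 0` on Kummer classes, for `σ`, `τ` in the inertia group at a
place where the fibre is nodal. -/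
theorem kummerEquiv_gal_gal_div {q N1 : ℕ} [NeZero (q * N1)] (hn : 0 < n)
    (hNI : NodalInertia q N1 n A)
    (hw : ∃ w : FF Qbar (q * N1) ≃ₐ[Qbar] FF Qbar (q * N1), IsWQ Qbar q N1 w)
    {σ τ : Qbar ≃ₐ[ℚ] Qbar} (hσ : σ ∈ A.inertiaSubgroupIn ℚ) (hτ : τ ∈ A.inertiaSubgroupIn ℚ)
    {u : LaurentSeries Qbar} (hu : IsKummer (N := q * N1) n u) :
    KummerEquiv (q * N1) n (gal σ u / u) (gal τ (gal σ u / u)) := by
  obtain ⟨w, hw⟩ := hw
  have hσu : IsKummer (N := q * N1) n (gal σ u) := C.isKummer_coeffMap_ringEquiv hu σ.toRingEquiv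
  have hy : IsKummer (N := q * N1) n (gal σ u / u) := hσu.div hu
  let U : FF Qbar (q * N1) := ⟨u, hu.mem⟩
  have hU0 : U ≠ 0 := fun h => hu.ne_zero (congrArg Subtype.val h)
  let y : FF Qbar (q * N1) := E.mapFF (σ : Qbar →+* Qbar) (q * N1) U / U
  have hyc : (y : LaurentSeries Qbar) = gal σ u / u := rfl
  have hwy : ((w y : FF Qbar (q * N1)) : LaurentSeries Qbar) =
      gal σ ((w U : FF Qbar (q * N1)) : LaurentSeries Qbar) /
        ((w U : FF Qbar (q * N1)) : LaurentSeries Qbar) := by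
    rw [map_div₀, ← isWQ_gal hw σ U]
    rfl
  have h := hNI w hw y (hyc ▸ hy) (hyc ▸ trivAt_gal_div A hn hσ hu.mem hu.ne_zero)
    (by
      rw [hwy]
      refine trivAt_gal_div A hn hσ (w U).2 ?_
      intro h0
      exact hU0 ((map_eq_zero w).mp (Subtype.ext h0))) τ hτ
  exact h

end Fermat.Agent.S34
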