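import Fermat.Agent.S31.Bridge

/-!
# S34, piece 1: the Hecke-Galois module `Λ / p ^ k Λ` together with the reduction map on
endomorphisms
-/

set_option autoImplicit false

namespace Fermat.Agent.S34

open CuspForm Fermat.Agent.S31

/-- the Hecke-Galois module `Λ / p ^ k Λ`, with the reduction homomorphism `End Λ → End W`. -/
theorem exists_heckeGaloisModule_red {N : ℕ} [NeZero N] {p : ℕ} (S : Set ℕ) (hpS : p ∈ S)
    (D : GR.H.TateData N p) (k : ℕ) :
    ∃ (M : HeckeGaloisModule N S p k) (φ : Module.End ℤ D.Λ →+* Module.End ℤ M.W),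
      (∀ (σ : GQ) (w : M.W), M.r σ w = φ (D.gal k σ) w) ∧
      (∀ (a : heckeAlgebra N 2 S) (w : M.W), a • w =
        φ (D.hecke (Subalgebra.inclusion (heckeAlgebra_mono (Set.empty_subset S)) a)) w) ∧
      (∀ f g : Module.End ℤ D.Λ, GR.H.EndCong (p ^ k) f g → φ f = φ g) ∧
      ∀ a : heckeAlgebra N 2 S, (∀ w : M.W, a • w = 0) →
        ∃ h : Module.End ℤ D.Λ,
          D.hecke (Subalgebra.inclusion (heckeAlgebra_mono (Set.empty_subset S)) a) =
            (p ^ k : ℕ) • h := by
  classical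
  let ι : heckeAlgebra N 2 S →+* GR.H.HeckeFull N :=
    (Subalgebra.inclusion (heckeAlgebra_mono (Set.empty_subset S))).toRingHom
  let red := Bridge_red (Λ := D.Λ) (p ^ k)
  let ψ : heckeAlgebra N 2 S →+* Module.End ℤ (D.Λ ⧸ Bridge_sub D.Λ (p ^ k)) :=
    red.comp (D.hecke.comp ι)
  let g : GQ → Module.End ℤ (D.Λ ⧸ Bridge_sub D.Λ (p ^ k)) := fun σ => red (D.gal k σ)
  have h1 : g 1 = 1 := by
    show red (D.gal k 1) = 1
    rw [← map_one red]
    exact Bridge_red_eq _ (D.gal_one k)
  have hmul : ∀ σ τ, g (σ * τ) = g σ * g τ := fun σ τ => by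
    show red (D.gal k (σ * τ)) = red (D.gal k σ) * red (D.gal k τ)
    rw [← map_mul red]
    exact Bridge_red_eq _ (D.gal_mul k σ τ)
  have hcomm : ∀ σ t, g σ * ψ t = ψ t * g σ := fun σ t => by
    show red (D.gal k σ) * red (D.hecke (ι t)) = red (D.hecke (ι t)) * red (D.gal k σ)
    rw [← map_mul red, ← map_mul red]
    exact Bridge_red_eq _ (D.gal_hecke k σ (ι t))
  let inst : Module (heckeAlgebra N 2 S) (D.Λ ⧸ Bridge_sub D.Λ (p ^ k)) := Module.compHom _ ψ
  refine ⟨{ W := D.Λ ⧸ Bridge_sub D.Λ (p ^ k)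
            instAddCommGroup := inferInstance
            instModule := inst
            r := Bridge_rep ψ g h1 hmul hcomm
            level := ?_
            killed := ?_
            eichlerShimura := ?_
            unramified := ?_ }, red, fun _ _ => rfl, fun _ _ => rfl,
            fun _ _ h => Bridge_red_eq _ h, ?_⟩
  · obtain ⟨L, hL, hL'⟩ := D.gal_level k
    refine ⟨L, hL, fun σ hσ => LinearMap.ext fun w => ?_⟩
    have : g σ = 1 := by
      show red (D.gal k σ) = 1
      rw [← map_one red]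
      exact Bridge_red_eq _ (hL' σ hσ)
    exact LinearMap.congr_fun this w
  · intro w
    induction w using Submodule.Quotient.induction_on with
    | _ x =>
      rw [← Submodule.Quotient.mk_smul, Submodule.Quotient.mk_eq_zero]
      exact (Bridge_mem_sub _).mpr ⟨x, (natCast_zsmul _ _).symm⟩
  · intro ℓ hℓ hℓN hℓS A hA σ hσ w
    have hℓp : ℓ ≠ p := fun h => hℓS (h ▸ hpS)
    have key := Bridge_red_eq _ (D.gal_frob ℓ hℓ hℓN hℓp A hA σ hσ k)
    have key' := LinearMap.congr_fun key w
    have e1 : ι (heckeAlgebra.T hℓ hℓN hℓS) = GR.H.HeckeFull.T hℓ hℓN := Subtype.ext rfl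
    have e2 : ψ (ℓ : heckeAlgebra N 2 S) = red ((ℓ : ℤ) • 1) := by
      show red (D.hecke (ι (ℓ : heckeAlgebra N 2 S))) = _
      rw [map_natCast, map_natCast]
      congr 1
      simp
    show g σ (g σ w) - ψ (heckeAlgebra.T hℓ hℓN hℓS) (g σ w) + ψ (ℓ : heckeAlgebra N 2 S) w = 0
    rw [e2]
    show red (D.gal k σ) (red (D.gal k σ) w) -
      red (D.hecke (ι (heckeAlgebra.T hℓ hℓN hℓS))) (red (D.gal k σ) w) + _ = 0
    rw [e1]
    rw [map_add, map_sub, map_mul, map_mul, map_zero] at key'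
    exact key'
  · intro q hq hqN hqp P hP σ hσ
    refine LinearMap.ext fun w => ?_
    have : g σ = 1 := by
      show red (D.gal k σ) = 1
      rw [← map_one red]
      exact Bridge_red_eq _ (D.gal_unram q hq hqN hqp P hP σ hσ k)
    exact LinearMap.congr_fun this w
  · intro a ha
    refine Bridge_exists_smul (p ^ k) _ fun x => ?_
    have := ha (Submodule.Quotient.mk x)
    exact (Bridge_mem_sub _).mp ((Submodule.Quotient.mk_eq_zero _).mp this)

end Fermat.Agent.S34
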