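import Fermat.Agent.S31.Apply
import Fermat.Agent.S34.Module
import Fermat.Agent.GR.H.Cyc
import Fermat.Agent.S05.Inertia
import Fermat.Prelude.Def_GaloisRep_LocalConditions

/-!
# S34 from a `TateData` on which inertia at `q` acts unipotently
-/

set_option autoImplicit false

namespace Fermat.Agent.S34

open CuspForm Fermat.Agent.S31

/-- inertia at `q` fixes the roots of unity of order prime to `q`. -/
theorem inertia_apply_rootOfUnity (A : ValuationSubring (AlgebraicClosure ℚ)) {q : ℕ}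
    (hq : q.Prime) (hA : A.LiesOverPrime q) {σ : GQ} (hσ : σ ∈ A.inertiaSubgroupIn ℚ) {m : ℕ}
    (hm : ¬ q ∣ m) {ζ : AlgebraicClosure ℚ} (hζ : ζ ^ m = 1) : σ ζ = ζ := by
  have hm0 : m ≠ 0 := by rintro rfl; exact hm (dvd_zero _)
  have hζA : ζ ∈ A := Fermat.Agent.Lib.Frobenius.isIntegral_mem A
    (IsIntegral.of_pow (Nat.pos_of_ne_zero hm0) (by rw [hζ]; exact isIntegral_one))
  refine GR.H.Cyc_eq_of_sub_mem A q hq hA m hm _ _ ?_ hζ (S05.inertia_sub_mem A hσ hζA)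
  rw [← map_pow, hζ, map_one]

theorem charpoly_eq_of_trace_det {R V : Type*} [CommRing R] [AddCommGroup V] [Module R V]
    [Module.Free R V] [Module.Finite R V] (hV : Module.finrank R V = 2) (X : Module.End R V)
    (ht : LinearMap.trace R V X = 2) (hd : LinearMap.det X = 1) :
    LinearMap.charpoly X = (Polynomial.X - 1) ^ 2 := by
  have := MatA_nontrivial hV
  let e := Module.finBasisOfFinrankEq R V hV
  rw [← LinearMap.det_toMatrix e X] at hd
  rw [LinearMap.trace_eq_matrix_trace R e] at ht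
  rw [← LinearMap.charpoly_toMatrix X e, Matrix.charpoly_fin_two, ht, hd]
  simp only [map_ofNat, map_one]
  ring

variable {p : ℕ} {N : ℕ} [NeZero N] {S : Finset ℕ}
  {𝒪 : Type} [CommRing 𝒪] [IsDomain 𝒪] [IsDiscreteValuationRing 𝒪]
  [IsAdicComplete (IsLocalRing.maximalIdeal 𝒪) 𝒪]
  {θ : CuspForm.heckeAlgebra N 2 (↑S : Set ℕ) →+* IsLocalRing.ResidueField 𝒪}
  {T : Type} [CommRing T] [IsLocalRing T] [IsNoetherianRing T]
  [IsAdicComplete (IsLocalRing.maximalIdeal T) T] [Algebra 𝒪 T] [IsLocalHom (algebraMap 𝒪 T)]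
  [Module.Finite 𝒪 T] [Module.Free 𝒪 T]

/-- level `n` statement: an element `σ` fixing the `p`-power roots of unity with `(σ - 1)² = 0`
on all `Λ / p ^ k` has trace `2` and determinant `1` modulo `𝔪ⁿ`. -/
theorem trace_det_mem (hp : p.Prime) (hp𝒪 : (p : 𝒪) ∈ IsLocalRing.maximalIdeal 𝒪) (hpS : p ∈ S)
    (hNS : ∀ q : ℕ, q.Prime → q ∣ N → q ∈ S)
    (D : GR.H.TateData N p) (hinj : Function.Injective D.hecke)
    (H : CuspForm.HeckeGaloisRepDatum N (↑S : Set ℕ) 𝒪 θ T) (σ : GQ)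
    (hcyc : ∀ (k : ℕ) (ζ : AlgebraicClosure ℚ), ζ ^ (p ^ k) = 1 → σ ζ = ζ)
    (hunip : ∀ k, GR.H.EndCong (p ^ k) ((D.gal k σ - 1) * (D.gal k σ - 1)) 0) (n : ℕ) :
    LinearMap.trace T H.ρ.V (H.ρ.ρ σ) - 2 ∈ IsLocalRing.maximalIdeal T ^ n ∧
      LinearMap.det (H.ρ.ρ σ) - 1 ∈ IsLocalRing.maximalIdeal T ^ n := by
  classical
  let ι : heckeAlgebra N 2 (↑S : Set ℕ) →+* GR.H.HeckeFull N :=
    (Subalgebra.inclusion (heckeAlgebra_mono (Set.empty_subset (↑S : Set ℕ)))).toRingHom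
  have hι : Function.Injective ι := Subalgebra.inclusion_injective _
  obtain ⟨c₀, hc₀⟩ := exists_artinRees_bound (D.hecke.comp ι) (hinj.comp hι) p
  set k := n + c₀ with hk
  obtain ⟨M, φ, hr, -, hφ, hM⟩ := exists_heckeGaloisModule_red (↑S : Set ℕ) hpS D k
  have : NeZero (p : ℚ) := ⟨by exact_mod_cast hp.ne_zero⟩
  obtain ⟨ζ, hζ⟩ := HasEnoughRootsOfUnity.exists_primitiveRoot (AlgebraicClosure ℚ) (p ^ k)
  obtain ⟨t, d, h1, htr, hdet, hζd⟩ :=
    exists_trace_det_data frobeniusDensity hp hpS hNS H n k M ζ hζ.pow_eq_one σ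
  have hpT : (p : T) ∈ IsLocalRing.maximalIdeal T := by
    have := map_nonunit (algebraMap 𝒪 T) (p : 𝒪) hp𝒪
    rwa [map_natCast] at this
  -- `d ≡ 1 mod p ^ k`
  have hd1 : d ≡ 1 [MOD p ^ k] := by
    have h2 : ζ ^ d = ζ ^ 1 := by rw [← hζd, hcyc k ζ hζ.pow_eq_one, pow_one]
    have := hζ.isOfFinOrder (pow_pos hp.pos _).ne' |>.pow_eq_pow_iff_modEq.mp h2
    rwa [← hζ.eq_orderOf] at this
  have hdw : ∀ w : M.W, (d : heckeAlgebra N 2 (↑S : Set ℕ)) • w = w := by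
    intro w
    have key : ∀ a b : ℕ, a ≤ b → a ≡ b [MOD p ^ k] → a • w = b • w := by
      intro a b hab hmod
      obtain ⟨c, hc⟩ := (Nat.modEq_iff_dvd' hab).mp hmod
      have : b = a + c * p ^ k := by rw [mul_comm, ← hc]; omega
      rw [this, add_smul, mul_smul, M.killed, smul_zero, add_zero]
    rw [Nat.cast_smul_eq_nsmul]
    rcases le_total d 1 with hle | hle
    · rw [key _ _ hle hd1, one_smul]
    · rw [← key _ _ hle hd1.symm, one_smul]
  have hdT : (d : T) - 1 ∈ IsLocalRing.maximalIdeal T ^ n := by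
    obtain ⟨c, hc⟩ := (Nat.modEq_iff_dvd.mp hd1.symm)
    have h2 : (d : T) - 1 = (p : T) ^ k * (c : T) := by
      have := congrArg (Int.cast : ℤ → T) hc
      push_cast at this
      exact this
    rw [h2]
    refine Ideal.mul_mem_right _ _ (Ideal.pow_le_pow_right (Nat.le_add_right n c₀) ?_)
    exact Ideal.pow_mem_pow hpT k
  -- `(σ - 1)² = 0` on `W`
  have hu : ∀ w : M.W, M.r σ (M.r σ w) - (2 : heckeAlgebra N 2 (↑S : Set ℕ)) • M.r σ w + w = 0 := by
    intro w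
    have h2 := LinearMap.congr_fun (hφ _ _ (hunip k)) w
    rw [map_mul, map_sub, map_one, map_zero, Module.End.mul_apply, LinearMap.sub_apply,
      LinearMap.sub_apply, Module.End.one_apply, Module.End.one_apply, map_sub, ← hr, ← hr,
      LinearMap.zero_apply] at h2
    rw [two_smul]
    rw [← h2]
    abel
  -- so `t - 2` kills `W`
  have hkill : ∀ w : M.W, (t - 2) • w = 0 := by
    intro w
    have hw : M.r σ (M.r σ⁻¹ w) = w := by
      rw [← Module.End.mul_apply, ← map_mul, mul_inv_cancel, map_one, Module.End.one_apply]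
    have h3 := h1 (M.r σ⁻¹ w)
    have h4 := hu (M.r σ⁻¹ w)
    rw [hdw, hw] at h3
    rw [hw] at h4
    rw [sub_smul]
    have : t • w - (2 : heckeAlgebra N 2 (↑S : Set ℕ)) • w =
        (M.r σ w - (2 : heckeAlgebra N 2 (↑S : Set ℕ)) • w + M.r σ⁻¹ w) -
          (M.r σ w - t • w + M.r σ⁻¹ w) := by abel
    rw [this, h3, h4, sub_zero]
  have hπ : H.π (t - 2) ∈ IsLocalRing.maximalIdeal T ^ n := by
    refine faithful_mod hp hp𝒪 H n _ ?_
    obtain ⟨a', ha'⟩ := hc₀ k (t - 2) (hM _ hkill)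
    rw [hk, Nat.add_sub_cancel] at ha'
    exact ⟨1, a', fun h => hp.one_lt.ne' (Nat.dvd_one.mp h), by rw [one_smul]; exact ha'⟩
  constructor
  · have : LinearMap.trace T H.ρ.V (H.ρ.ρ σ) - 2 =
        (LinearMap.trace T H.ρ.V (H.ρ.ρ σ) - H.π t) + H.π (t - 2) := by
      rw [map_sub, map_ofNat]; ring
    rw [this]
    exact Ideal.add_mem _ htr hπ
  · have : LinearMap.det (H.ρ.ρ σ) - 1 = (LinearMap.det (H.ρ.ρ σ) - (d : T)) + ((d : T) - 1) := by
      ring
    rw [this]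
    exact Ideal.add_mem _ hdet hdT

omit [IsAdicComplete (IsLocalRing.maximalIdeal T) T] in
theorem eq_of_forall_sub_mem (x y : T) (h : ∀ n : ℕ, x - y ∈ IsLocalRing.maximalIdeal T ^ n) :
    x = y := by
  have h2 : x - y ∈ (⨅ n : ℕ, IsLocalRing.maximalIdeal T ^ n) := (Ideal.mem_iInf).mpr h
  rw [Ideal.iInf_pow_eq_bot_of_isLocalRing _ (Ideal.IsPrime.ne_top inferInstance),
    Ideal.mem_bot, sub_eq_zero] at h2
  exact h2

/-- **S34 from the GR interface.** -/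
theorem isUnipotentOnInertiaAt_of_tateData (hp : p.Prime)
    (hp𝒪 : (p : 𝒪) ∈ IsLocalRing.maximalIdeal 𝒪) (hpS : p ∈ S)
    (hNS : ∀ q : ℕ, q.Prime → q ∣ N → q ∈ S)
    (D : GR.H.TateData N p) (hinj : Function.Injective D.hecke)
    (H : CuspForm.HeckeGaloisRepDatum N (↑S : Set ℕ) 𝒪 θ T)
    (q : ℕ) (hq : q.Prime) (hqp : q ≠ p)
    (hunip : ∀ A : ValuationSubring (AlgebraicClosure ℚ), A.LiesOverPrime q →
      ∀ σ ∈ A.inertiaSubgroupIn ℚ, ∀ k,
        GR.H.EndCong (p ^ k) ((D.gal k σ - 1) * (D.gal k σ - 1)) 0) :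
    H.ρ.IsUnipotentOnInertiaAt q := by
  intro P hP σ hσ
  have hcyc : ∀ (k : ℕ) (ζ : AlgebraicClosure ℚ), ζ ^ (p ^ k) = 1 → σ ζ = ζ := by
    intro k ζ hζ
    refine inertia_apply_rootOfUnity P hq hP hσ (m := p ^ k) ?_ hζ
    intro h
    exact hqp ((Nat.prime_dvd_prime_iff_eq hq hp).mp (hq.dvd_of_dvd_pow h))
  have h := trace_det_mem hp hp𝒪 hpS hNS D hinj H σ hcyc (hunip P hP σ hσ)
  exact charpoly_eq_of_trace_det H.ρ.finrank_eq _
    (eq_of_forall_sub_mem _ _ fun n => (h n).1) (eq_of_forall_sub_mem _ _ fun n => (h n).2)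

end Fermat.Agent.S34
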