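import Fermat.Agent.S34.Tate
import Fermat.Agent.GR.I.Final
import Fermat.Agent.GR.I.CharTheoryMk
import Fermat.Agent.GR.D.Top.Main

/-!
# S34 from the two exports of GS-CONC / GT-EMB
-/

set_option autoImplicit false

namespace Fermat.Agent.S34

open Fermat.Agent.GR Fermat.Agent.GS Fermat.Agent.GR.I IsLocalRing

/-- S34, given `NodalInertia` (GS-CONC) and the existence of the Atkin-Lehner involution
(GT-EMB). -/
theorem S34_of_inputs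
    (hNI : ∀ (q N1 n : ℕ), q.Prime → ¬ q ∣ N1 → N1 ≠ 0 → ¬ q ∣ n → 0 < n →
      ∀ A : ValuationSubring Qbar, A.LiesOverPrime q → NodalInertia q N1 n A)
    (hw : ∀ (q N1 : ℕ), q.Prime → ¬ q ∣ N1 → N1 ≠ 0 →
      ∃ w : FF Qbar (q * N1) ≃ₐ[Qbar] FF Qbar (q * N1), IsWQ Qbar q N1 w)
    {𝒪 : Type} [CommRing 𝒪] [IsDomain 𝒪] [IsDiscreteValuationRing 𝒪]
    [IsAdicComplete (maximalIdeal 𝒪) 𝒪]
    {p : ℕ} (hp : p.Prime) (hp𝒪 : (p : 𝒪) ∈ maximalIdeal 𝒪)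
    {N : ℕ} [NeZero N] {S : Finset ℕ} (hpS : p ∈ S) (hNS : ∀ q : ℕ, q.Prime → q ∣ N → q ∈ S)
    {θ : CuspForm.heckeAlgebra N 2 (↑S : Set ℕ) →+* ResidueField 𝒪}
    {T : Type} [CommRing T] [IsLocalRing T] [IsNoetherianRing T]
    [IsAdicComplete (maximalIdeal T) T] [Algebra 𝒪 T] [IsLocalHom (algebraMap 𝒪 T)]
    [Module.Finite 𝒪 T] [Module.Free 𝒪 T]
    (H : CuspForm.HeckeGaloisRepDatum N (↑S : Set ℕ) 𝒪 θ T)
    (q : ℕ) (hq : q.Prime) (hqp : q ≠ p) (hqN : q ∣ N) (hq2 : ¬ q ^ 2 ∣ N) :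
    H.ρ.IsUnipotentOnInertiaAt q := by
  obtain ⟨N1, rfl⟩ := hqN
  have hN1 : N1 ≠ 0 := by
    rintro rfl
    exact (NeZero.ne (q * 0)) (mul_zero q)
  have hqN1 : ¬ q ∣ N1 := by
    rintro ⟨c, rfl⟩
    exact hq2 ⟨c, by ring⟩
  let ι : Qbar →+* ℂ := (IsAlgClosed.lift (R := ℚ) (S := Qbar) (M := ℂ)).toRingHom
  refine isUnipotentOnInertiaAt_of_nodalInertia hp hp𝒪 hpS hNS
    ((charTheory (q * N1)).toKummerData ι) (B.heckeLam_injective (q * N1))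
    (cruxAll_of_modelExists D.Top.modelExists (q * N1)) ?_ (hw q N1 hq hqN1 hN1) H hq hqp
  intro A hA k
  refine hNI q N1 (p ^ k) hq hqN1 hN1 ?_ (pow_pos hp.pos k) A hA
  intro h
  exact hqp ((Nat.prime_dvd_prime_iff_eq hq hp).mp (hq.dvd_of_dvd_pow h))

end Fermat.Agent.S34
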