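import Fermat.Agent.S34.Kummer
import Fermat.Agent.S34.Of
import Fermat.Agent.GR.I.Level

/-!
# S34, piece 3: unipotence of inertia on the `TateData` built from a `KummerData`, and S34 in
hypothesis form
-/

set_option autoImplicit false

namespace Fermat.Agent.S34

open Fermat.Agent.GR Fermat.Agent.GS Fermat.Agent.GR.I

/-- `(σ - 1)² = 0` on `Λ / p ^ k` for `σ` in the inertia group at a nodal place. -/
theorem endCong_unip {q N1 p : ℕ} [NeZero (q * N1)] (K : KummerData (q * N1))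
    (hcrux : CruxAll (q * N1)) (hp : p.Prime) (A : ValuationSubring Qbar)
    (hNI : ∀ k, NodalInertia q N1 (p ^ k) A)
    (hw : ∃ w : FF Qbar (q * N1) ≃ₐ[Qbar] FF Qbar (q * N1), IsWQ Qbar q N1 w)
    {σ : Qbar ≃ₐ[ℚ] Qbar} (hσ : σ ∈ A.inertiaSubgroupIn ℚ) (k : ℕ) :
    H.EndCong (p ^ k)
      (((K.toLevelData hcrux p hp).toTateData.gal k σ - 1) *
        ((K.toLevelData hcrux p hp).toTateData.gal k σ - 1)) 0 := by
  set D' := K.toLevelData hcrux p hp with hD'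
  have hn : 0 < p ^ k := pow_pos hp.pos k
  refine D'.endCong_of_red k _ _ fun x => ?_
  show D'.red k (((D'.gal k σ - 1) * (D'.gal k σ - 1)) x) = D'.red k ((0 : Module.End ℤ D'.Λ) x)
  rw [Module.End.mul_apply, LinearMap.sub_apply, LinearMap.sub_apply, Module.End.one_apply,
    Module.End.one_apply, map_sub, map_sub, map_sub, map_sub, LinearMap.zero_apply, map_zero,
    D'.red_gal, D'.red_gal]
  show K.act (p ^ k) σ (K.act (p ^ k) σ (K.red (p ^ k) x)) - K.act (p ^ k) σ (K.red (p ^ k) x) -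
    (K.act (p ^ k) σ (K.red (p ^ k) x) - K.red (p ^ k) x) = 0
  obtain ⟨u, hu, hux⟩ := K.theta_surj (p ^ k) hn x
  have hσu := galStable (N := q * N1) (p ^ k) σ _ hu
  have hσσu := galStable (N := q * N1) (p ^ k) σ _ hσu
  rw [← hux, K.act_theta hn σ hu, K.act_theta hn σ hσu]
  have hy : IsKummer (N := q * N1) (p ^ k) (gal σ u / u) := hσu.div hu
  have hσy := galStable (N := q * N1) (p ^ k) σ _ hy
  have h1 := (K.theta_eq_iff (p ^ k) hn _ _ hy hσy).mpr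
    (kummerEquiv_gal_gal_div A hn (hNI k) hw hσ hσ hu)
  have h2 := K.theta_mul (p ^ k) hn _ _ hy hu
  have h3 := K.theta_mul (p ^ k) hn _ _ hσy hσu
  rw [div_mul_cancel₀ _ hu.ne_zero] at h2
  rw [map_div₀, div_mul_cancel₀ _ hσu.ne_zero, ← map_div₀] at h3
  rw [h3, h2, ← h1]
  abel

variable {p : ℕ} {S : Finset ℕ}
  {𝒪 : Type} [CommRing 𝒪] [IsDomain 𝒪] [IsDiscreteValuationRing 𝒪]
  [IsAdicComplete (IsLocalRing.maximalIdeal 𝒪) 𝒪]
  {T : Type} [CommRing T] [IsLocalRing T] [IsNoetherianRing T]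
  [IsAdicComplete (IsLocalRing.maximalIdeal T) T] [Algebra 𝒪 T] [IsLocalHom (algebraMap 𝒪 T)]
  [Module.Finite 𝒪 T] [Module.Free 𝒪 T]

/-- **S34 in hypothesis form**, level `q * N1`. -/
theorem isUnipotentOnInertiaAt_of_nodalInertia {q N1 : ℕ} [NeZero (q * N1)]
    {θ : CuspForm.heckeAlgebra (q * N1) 2 (↑S : Set ℕ) →+* IsLocalRing.ResidueField 𝒪}
    (hp : p.Prime) (hp𝒪 : (p : 𝒪) ∈ IsLocalRing.maximalIdeal 𝒪) (hpS : p ∈ S)
    (hNS : ∀ r : ℕ, r.Prime → r ∣ q * N1 → r ∈ S)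
    (K : KummerData (q * N1)) (hinj : Function.Injective K.hecke) (hcrux : CruxAll (q * N1))
    (hNI : ∀ A : ValuationSubring Qbar, A.LiesOverPrime q → ∀ k, NodalInertia q N1 (p ^ k) A)
    (hw : ∃ w : FF Qbar (q * N1) ≃ₐ[Qbar] FF Qbar (q * N1), IsWQ Qbar q N1 w)
    (H : CuspForm.HeckeGaloisRepDatum (q * N1) (↑S : Set ℕ) 𝒪 θ T)
    (hq : q.Prime) (hqp : q ≠ p) :
    H.ρ.IsUnipotentOnInertiaAt q :=
  isUnipotentOnInertiaAt_of_tateData hp hp𝒪 hpS hNS (K.toLevelData hcrux p hp).toTateData hinj H q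
    hq hqp fun A hA _ hσ k => endCong_unip K hcrux hp A (hNI A hA) hw hσ k

end Fermat.Agent.S34
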