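import Fermat.Agent.GS.FW.Descend
import Fermat.Agent.GS.FW.Tate
import Fermat.Agent.S34.Of
import Fermat.Agent.GR.I.Final
import Fermat.Agent.GR.I.CharTheoryMk
import Fermat.Agent.GR.D.Top.Main

/-!
# S34 from the input (U) of GS (`FW.UnipAt` at the levels divisible by the auxiliary prime)
-/

set_option autoImplicit false

namespace Fermat.Agent.S34

open Fermat.Agent.GR Fermat.Agent.GS Fermat.Agent.GR.I IsLocalRing

/-- (U) at all levels from (U) at the levels divisible by the auxiliary prime. -/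
theorem Wire_unipAt
    (hU : ∀ (N : ℕ) [NeZero N] (q n : ℕ) (A : ValuationSubring Qbar), q.Prime → q ∣ N →
      ¬ q ^ 2 ∣ N → ¬ q ∣ n → 0 < n → (if q = 2 then 3 else 2) ∣ N → A.LiesOverPrime q →
      FW.UnipAt N n A)
    (N : ℕ) [NeZero N] (q n : ℕ) (A : ValuationSubring Qbar)
    (hq : q.Prime) (hqN : q ∣ N) (hq2 : ¬ q ^ 2 ∣ N) (hqn : ¬ q ∣ n) (hn : 0 < n)
    (hA : A.LiesOverPrime q) : FW.UnipAt N n A := by
  by_cases haux : (if q = 2 then 3 else 2) ∣ N
  · exact hU N q n A hq hqN hq2 hqn hn haux hA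
  · have hr : (if q = 2 then 3 else 2).Prime := by
      split_ifs
      · exact Nat.prime_three
      · exact Nat.prime_two
    have hne : (if q = 2 then 3 else 2) ≠ q := by
      split_ifs with h
      · omega
      · exact fun h' => h h'.symm
    have hcop : Nat.Coprime q (if q = 2 then 3 else 2) := (Nat.coprime_primes hq hr).2 hne.symm
    have : NeZero (N * (if q = 2 then 3 else 2)) := ⟨mul_ne_zero (NeZero.ne N) hr.ne_zero⟩
    refine FW.UnipAt.descend hr haux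
      (hU (N * (if q = 2 then 3 else 2)) q n A hq (Dvd.dvd.mul_right hqN _) ?_ hqn hn
        (Dvd.intro_left _ rfl) hA)
    intro h
    exact hq2 (Nat.Coprime.dvd_of_dvd_mul_right (Nat.Coprime.pow_left 2 hcop) h)

/-- S34, given (U) at the levels divisible by the auxiliary prime. -/
theorem S34_of_inputU
    (hU : ∀ (N : ℕ) [NeZero N] (q n : ℕ) (A : ValuationSubring Qbar), q.Prime → q ∣ N →
      ¬ q ^ 2 ∣ N → ¬ q ∣ n → 0 < n → (if q = 2 then 3 else 2) ∣ N → A.LiesOverPrime q →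
      FW.UnipAt N n A)
    {𝒪 : Type} [CommRing 𝒪] [IsDomain 𝒪] [IsDiscreteValuationRing 𝒪]
    [IsAdicComplete (maximalIdeal 𝒪) 𝒪]
    {p : ℕ} (hp : p.Prime) (hp𝒪 : (p : 𝒪) ∈ maximalIdeal 𝒪)
    {N : ℕ} [NeZero N] {S : Finset ℕ} (hpS : p ∈ S) (hNS : ∀ q : ℕ, q.Prime → q ∣ N → q ∈ S)
    {θ : CuspForm.heckeAlgebra N 2 (↑S : Set ℕ) →+* ResidueField 𝒪}
    {T : Type} [CommRing T] [IsLocalRing T] [IsNoetherianRing T]
    [IsAdicComplete (maximalIdeal T) T] [Algebra 𝒪 T] [IsLocalHom (algebraMap 𝒪 T)]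
    [Module.Finite 𝒪 T] [Module.Free 𝒪 T]
    (H : CuspForm.HeckeGaloisRepDatum N (↑S : Set ℕ) 𝒪 θ T)
    (q : ℕ) (hq : q.Prime) (hqp : q ≠ p) (hqN : q ∣ N) (hq2 : ¬ q ^ 2 ∣ N) :
    H.ρ.IsUnipotentOnInertiaAt q := by
  let ι : Qbar →+* ℂ := (IsAlgClosed.lift (R := ℚ) (S := Qbar) (M := ℂ)).toRingHom
  have hcrux : CruxAll N := cruxAll_of_modelExists D.Top.modelExists N
  refine isUnipotentOnInertiaAt_of_tateData hp hp𝒪 hpS hNS
    ((((charTheory N).toKummerData ι).toLevelData hcrux p hp).toTateData)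
    (B.heckeLam_injective N) H q hq hqp ?_
  refine FW.tateUnip_of_unipAt ((charTheory N).toKummerData ι) hcrux p hp q fun A hA k => ?_
  refine Wire_unipAt hU N q (p ^ k) A hq hqN hq2 ?_ (pow_pos hp.pos k) hA
  intro h
  exact hqp ((Nat.prime_dvd_prime_iff_eq hq hp).mp (hq.dvd_of_dvd_pow h))

end Fermat.Agent.S34
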